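import Fermat.Agent.RingIdentities.TracePowers
import Mathlib.LinearAlgebra.ExteriorAlgebra.OfAlternating
import Mathlib.LinearAlgebra.Determinant
import Mathlib.RingTheory.Localization.FractionRing
import Mathlib.Algebra.CharP.Algebra
import Mathlib.RingTheory.MvPolynomial.Basic
import Mathlib.GroupTheory.Perm.Sign
import Mathlib.Order.Fin.Basic

/-!
# The Amitsur–Levitzki theorem

Rosset's proof: the matrix `∑ eᵢ Aᵢ` with exterior coefficients has a square with central entries
all of whose powers have trace zero.
-/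

set_option autoImplicit false

open Matrix

namespace Fermat.Agent.RingIdentities

/-- The standard polynomial `∑ sign σ · a (σ 1) ⋯ a (σ N)`. -/
def stdPoly {S : Type*} [Ring S] {N : ℕ} (a : Fin N → S) : S :=
  ∑ σ : Equiv.Perm (Fin N), (Equiv.Perm.sign σ : ℤ) • (List.ofFn fun i => a (σ i)).prod

theorem map_stdPoly {S T F : Type*} [Ring S] [Ring T] [FunLike F S T] [RingHomClass F S T]
    (φ : F) {N : ℕ} (a : Fin N → S) : φ (stdPoly a) = stdPoly fun i => φ (a i) := by
  simp [stdPoly, map_sum, map_list_prod, List.map_ofFn, Function.comp_def]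

section Rosset

open ExteriorAlgebra

variable {K : Type*} [Field K] [CharZero K] {n : Type*} [Fintype n] [DecidableEq n] {N : ℕ}

variable (K) in
/-- The generators of the exterior algebra. -/
noncomputable abbrev gen (i : Fin N) : ExteriorAlgebra K (Fin N → K) :=
  ι K (Pi.single i 1)

omit [CharZero K] in
theorem prod_gen (f : Fin N → Fin N) :
    (List.ofFn fun i => gen K (f i)).prod =
      ιMulti K N (fun i => (Pi.single (f i) 1 : Fin N → K)) := (ιMulti_apply _).symm

omit [CharZero K] in
theorem prod_gen_perm (σ : Equiv.Perm (Fin N)) :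
    (List.ofFn fun i => gen K (σ i)).prod =
      Equiv.Perm.sign σ • ιMulti K N (fun i => (Pi.single i 1 : Fin N → K)) :=
  (prod_gen _).trans ((ιMulti K N).map_perm (fun i => (Pi.single i 1 : Fin N → K)) σ)

omit [CharZero K] in
theorem ιMulti_single_ne_zero :
    ιMulti K N (fun i => (Pi.single i 1 : Fin N → K)) ≠ 0 := by
  intro h
  classical
  let F : ∀ i, (Fin N → K) [⋀^Fin i]→ₗ[K] K := fun i =>
    if e : N = i then e ▸ (Pi.basisFun K (Fin N)).det else 0
  have h1 := congrArg (liftAlternating (R := K) (M := Fin N → K) (N := K) F) h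
  rw [liftAlternating_apply_ιMulti, map_zero] at h1
  simp only [F, dite_true] at h1
  have h2 : (Pi.basisFun K (Fin N)).det (fun i => (Pi.single i 1 : Fin N → K)) = 1 := by
    rw [show (fun i => (Pi.single i 1 : Fin N → K)) = ⇑(Pi.basisFun K (Fin N)) from
      funext fun i => (Pi.basisFun_apply K (Fin N) i).symm]
    exact (Pi.basisFun K (Fin N)).det_self
  rw [h2] at h1
  exact one_ne_zero h1

omit [CharZero K] in
theorem pair_mem_center (u v : Fin N → K) :
    ι K u * ι K v ∈ Subalgebra.center K (ExteriorAlgebra K (Fin N → K)) := by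
  rw [Subalgebra.mem_center_iff]
  intro b
  induction b using ExteriorAlgebra.induction with
  | algebraMap r => exact Algebra.commutes r _
  | ι w =>
    have h1 : ι K w * ι K u = -(ι K u * ι K w) := eq_neg_of_add_eq_zero_left (ι_add_mul_swap w u)
    have h2 : ι K w * ι K v = -(ι K v * ι K w) := eq_neg_of_add_eq_zero_left (ι_add_mul_swap w v)
    rw [← mul_assoc, h1, neg_mul, mul_assoc, h2, mul_neg, neg_neg, mul_assoc]
  | mul a b ha hb => rw [mul_assoc, hb, ← mul_assoc, ha, mul_assoc]
  | add a b ha hb => rw [add_mul, mul_add, ha, hb]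

variable (A : Fin N → Matrix n n K)

/-- Rosset's matrix. -/
noncomputable def rossetMatrix : Matrix n n (ExteriorAlgebra K (Fin N → K)) :=
  Matrix.of fun r s => ι K fun i => A i r s

omit [CharZero K] [Fintype n] [DecidableEq n] in
theorem rossetMatrix_apply (r s : n) :
    rossetMatrix A r s = ∑ i, A i r s • gen K i := by
  rw [rossetMatrix, Matrix.of_apply]
  conv_lhs => rw [pi_eq_sum_univ' fun i => A i r s]
  rw [map_sum]
  exact Finset.sum_congr rfl fun i _ => map_smul _ _ _

omit [CharZero K] in
theorem rossetMatrix_pow (m : ℕ) (r s : n) :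
    (rossetMatrix A ^ m) r s = ∑ f : Fin m → Fin N,
      (List.ofFn fun i => A (f i)).prod r s • (List.ofFn fun i => gen K (f i)).prod := by
  induction m generalizing r s with
  | zero =>
    rw [Fintype.sum_unique, pow_zero, List.ofFn_zero, List.ofFn_zero, List.prod_nil,
      List.prod_nil]
    by_cases h : r = s <;> simp [h, Matrix.one_apply]
  | succ m ih =>
    rw [pow_succ', Matrix.mul_apply, ← (Fin.consEquiv fun _ => Fin N).sum_comp,
      Fintype.sum_prod_type]
    simp only [Fin.consEquiv_apply, List.ofFn_succ, Fin.cons_zero, Fin.cons_succ, List.prod_cons,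
      Matrix.mul_apply, Finset.sum_smul, rossetMatrix_apply, ih, Finset.sum_mul, Finset.mul_sum,
      smul_mul_smul_comm]
    rw [Finset.sum_comm]
    exact (Finset.sum_congr rfl fun _ _ => Finset.sum_comm).trans Finset.sum_comm

theorem rossetMatrix_pow_eq_zero : rossetMatrix A ^ (2 * Fintype.card n) = 0 := by
  set X := rossetMatrix A with hX
  let C := Subalgebra.center K (ExteriorAlgebra K (Fin N → K))
  have hmem : ∀ r s, (X * X) r s ∈ C := fun r s => by
    rw [Matrix.mul_apply]
    exact sum_mem fun t _ => pair_mem_center _ _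
  let M : Matrix n n C := Matrix.of fun r s => ⟨(X * X) r s, hmem r s⟩
  have hM : ∀ j, (M ^ j).map C.val = X ^ (2 * j) := by
    intro j
    have e : M.map C.val = X * X := by ext r s; rfl
    rw [pow_mul, pow_two, ← e]
    exact map_pow C.val.mapMatrix M j
  have hcancel : ∀ (j : ℕ) (x : C), j ≠ 0 → j • x = 0 → x = 0 := fun j x hj h => by
    rw [← Nat.cast_smul_eq_nsmul K] at h
    exact (smul_eq_zero.1 h).resolve_left (Nat.cast_ne_zero.2 hj)
  have htr : ∀ j, 1 ≤ j → (M ^ j).trace = 0 := by
    intro j hj
    obtain ⟨i, rfl⟩ : ∃ i, j = i + 1 := ⟨j - 1, by omega⟩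
    apply Subtype.val_injective
    change C.val (M ^ (i + 1)).trace = 0
    rw [AddMonoidHom.map_trace, hM]
    set Z := (M ^ i).map C.val with hZ
    have hsplit : X ^ (2 * (i + 1)) = X * (X * Z) := by
      rw [hZ, hM, ← pow_succ', ← pow_succ']
      congr 1
    have hcomm : X * Z * X = X * (X * Z) := by
      rw [hZ, hM, ← pow_succ', ← pow_succ', ← pow_succ]
    have hanti : (X * (X * Z)).trace = -(X * Z * X).trace := by
      simp only [Matrix.trace, diag_apply, Matrix.mul_apply (M := X) (N := X * Z),
        Matrix.mul_apply (M := X * Z) (N := X)]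
      conv_rhs => rw [Finset.sum_comm]
      simp only [← Finset.sum_neg_distrib]
      refine Finset.sum_congr rfl fun r _ => Finset.sum_congr rfl fun s _ => ?_
      simp only [Matrix.mul_apply, Finset.mul_sum, Finset.sum_mul, ← Finset.sum_neg_distrib]
      refine Finset.sum_congr rfl fun t _ => ?_
      have hz : ∀ b, b * Z t r = Z t r * b := fun b =>
        Subalgebra.mem_center_iff.1 ((M ^ i) t r).2 b
      rw [hX, rossetMatrix, Matrix.of_apply, Matrix.of_apply, mul_assoc, ← hz, ← mul_assoc,
        ← mul_assoc, eq_neg_of_add_eq_zero_left (ι_add_mul_swap _ _), neg_mul]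
    rw [hcomm] at hanti
    rw [hsplit]
    have h2 : (2 : K) • (X * (X * Z)).trace = 0 := by
      rw [two_smul]
      exact eq_neg_iff_add_eq_zero.1 hanti
    exact (smul_eq_zero.1 h2).resolve_left two_ne_zero
  rw [← hM, pow_card_eq_zero_of_trace_pow hcancel htr, Matrix.map_zero _ (map_zero _)]

theorem stdPoly_eq_zero_of_field (A : Fin (2 * Fintype.card n) → Matrix n n K) :
    stdPoly A = 0 := by
  classical
  ext r s
  have h : ∑ f : Fin (2 * Fintype.card n) → Fin (2 * Fintype.card n),
      (List.ofFn fun i => A (f i)).prod r s • (List.ofFn fun i => gen K (f i)).prod = 0 := by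
    rw [← rossetMatrix_pow, rossetMatrix_pow_eq_zero, Matrix.zero_apply]
  set ω := ιMulti K (2 * Fintype.card n)
    (fun i => (Pi.single i 1 : Fin (2 * Fintype.card n) → K)) with hω
  have key : (stdPoly A r s) • ω = 0 := by
    rw [← h, stdPoly, Matrix.sum_apply, Finset.sum_smul]
    refine Finset.sum_bij_ne_zero (fun σ _ _ => (σ : Fin _ → Fin _))
      (fun _ _ _ => Finset.mem_univ _) (fun _ _ _ _ _ _ e => Equiv.ext (congrFun e))
      (fun f _ hf => ?_) (fun σ _ _ => ?_)
    · have hinj : Function.Injective f := by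
        by_contra hni
        refine hf ?_
        rw [prod_gen, AlternatingMap.map_eq_zero_of_not_injective, smul_zero]
        exact fun e => hni fun x y hxy => e (by simp only [hxy])
      refine ⟨Equiv.ofBijective f (Finite.injective_iff_bijective.1 hinj), Finset.mem_univ _,
        fun e => hf ?_, rfl⟩
      have hp := prod_gen_perm (K := K)
        (Equiv.ofBijective f (Finite.injective_iff_bijective.1 hinj))
      simp only [Equiv.ofBijective_apply] at e hp
      rw [hp, ← hω]
      simp [Matrix.smul_apply, Units.smul_def] at e ⊢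
      rcases e with e | e <;> simp [e]
    · rw [prod_gen_perm, ← hω]
      rcases Int.units_eq_one_or (Equiv.Perm.sign σ) with e | e <;> simp [Matrix.smul_apply, e]
  exact (smul_eq_zero.1 key).resolve_right ιMulti_single_ne_zero

end Rosset

/-- **Amitsur–Levitzki**: `n × n` matrices over a commutative ring satisfy the standard identity
of degree `2n`. -/
theorem stdPoly_eq_zero {R : Type*} [CommRing R] {n : Type*} [Fintype n] [DecidableEq n]
    (A : Fin (2 * Fintype.card n) → Matrix n n R) : stdPoly A = 0 := by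
  let V := Fin (2 * Fintype.card n) × n × n
  let G : Fin (2 * Fintype.card n) → Matrix n n (MvPolynomial V ℤ) := fun i =>
    Matrix.of fun r s => MvPolynomial.X (i, r, s)
  let F := FractionRing (MvPolynomial V ℤ)
  have : CharZero F :=
    charZero_of_injective_algebraMap (IsFractionRing.injective (MvPolynomial V ℤ) F)
  have hG : stdPoly G = 0 := by
    refine Matrix.map_injective (IsFractionRing.injective (MvPolynomial V ℤ) F) ?_
    show (stdPoly G).map _ = (0 : Matrix n n (MvPolynomial V ℤ)).map _
    rw [Matrix.map_zero _ (map_zero _)]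
    exact (map_stdPoly (algebraMap (MvPolynomial V ℤ) F).mapMatrix G).trans
      (stdPoly_eq_zero_of_field _)
  let ev : MvPolynomial V ℤ →+* R :=
    MvPolynomial.eval₂Hom (Int.castRingHom R) fun v => A v.1 v.2.1 v.2.2
  have hA : A = fun i => ev.mapMatrix (G i) := by
    funext i; ext r s; simp [G, ev]
  rw [hA, ← map_stdPoly, hG, map_zero]

/-- The matrix unit used in the sharpness example. -/
def stair (R : Type*) [Zero R] [One R] (m : ℕ) (k : Fin (2 * m + 1)) :
    Matrix (Fin (m + 1)) (Fin (m + 1)) R :=
  Matrix.single ⟨(k : ℕ) / 2, by omega⟩ ⟨((k : ℕ) + 1) / 2, by omega⟩ 1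

theorem prod_single {R : Type*} [CommRing R] {p : Type*} [Fintype p] [DecidableEq p] :
    ∀ (L : ℕ) (u v : Fin (L + 1) → p),
      (List.ofFn fun t => Matrix.single (u t) (v t) (1 : R)).prod =
        if ∀ t : Fin L, v t.castSucc = u t.succ then Matrix.single (u 0) (v (Fin.last L)) 1
        else 0 := by
  intro L
  induction L with
  | zero => intro u v; simp
  | succ L ih =>
    intro u v
    rw [List.ofFn_succ, List.prod_cons, ih (fun t => u t.succ) (fun t => v t.succ)]
    split_ifs with h1 h2 h2
    · have h0 : v 0 = u (Fin.succ 0) := h2 0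
      rw [← h0, Matrix.single_mul_single_same, mul_one, Fin.succ_last]
    · have h0 : v 0 ≠ u (Fin.succ 0) := fun e => h2 fun t => Fin.cases e (fun t => h1 t) t
      exact Matrix.single_mul_single_of_ne _ _ _ _ h0 _
    · exact absurd (fun t : Fin L => h2 t.succ) h1
    · rw [mul_zero]

/-- **Sharpness**: `(m+1) × (m+1)` matrices violate the standard identity of degree `2m + 1`. -/
theorem stdPoly_stair_ne_zero (R : Type*) [CommRing R] [Nontrivial R] (m : ℕ) :
    stdPoly (stair R m) ≠ 0 := by
  intro h
  have hz : ∀ σ : Equiv.Perm (Fin (2 * m + 1)), σ ≠ 1 →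
      (List.ofFn fun i => stair R m (σ i)).prod = 0 := by
    intro σ hσ
    refine (prod_single (2 * m) (fun t => (⟨(σ t : ℕ) / 2, by omega⟩ : Fin (m + 1)))
      (fun t => ⟨((σ t : ℕ) + 1) / 2, by omega⟩)).trans (if_neg fun hchain => hσ ?_)
    have hmono : StrictMono σ := Fin.strictMono_iff_lt_succ.2 fun t => by
      have h1 := congrArg Fin.val (hchain t)
      simp only at h1
      have h2 : (σ t.castSucc : ℕ) ≠ σ t.succ := fun e =>
        Fin.castSucc_lt_succ.ne (σ.injective (Fin.ext e))
      show (σ t.castSucc : ℕ) < σ t.succ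
      omega
    refine Equiv.ext fun t => ?_
    have h1 := Subsingleton.elim (StrictMono.orderIsoOfSurjective σ hmono σ.surjective)
      (OrderIso.refl _)
    exact congrArg (fun e : Fin (2 * m + 1) ≃o Fin (2 * m + 1) => e t) h1
  rw [stdPoly, Finset.sum_eq_single 1 (fun σ _ hσ => by rw [hz σ hσ, smul_zero])
    (fun e => absurd (Finset.mem_univ _) e), Equiv.Perm.sign_one, Units.val_one, one_smul] at h
  have h1 : (List.ofFn fun i => stair R m ((1 : Equiv.Perm (Fin (2 * m + 1))) i)).prod =
      Matrix.single
      (⟨0, by omega⟩ : Fin (m + 1)) ⟨((Fin.last (2 * m) : ℕ) + 1) / 2, by simp; omega⟩ 1 := by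
    refine (prod_single (2 * m) (fun t => (⟨(t : ℕ) / 2, by omega⟩ : Fin (m + 1)))
      (fun t => ⟨((t : ℕ) + 1) / 2, by omega⟩)).trans ((if_pos fun t => Fin.ext ?_).trans ?_)
    · simp
    · simp
  rw [h1] at h
  simpa [Matrix.single] using congrFun (congrFun h ⟨0, by omega⟩)
    ⟨((Fin.last (2 * m) : ℕ) + 1) / 2, by simp; omega⟩

end Fermat.Agent.RingIdentities
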