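import Mathlib.RingTheory.LittleWedderburn
import Mathlib.RingTheory.Ideal.Quotient.Operations
import Mathlib.FieldTheory.Finite.Basic
import Mathlib.Algebra.CharP.Lemmas
import Mathlib.Algebra.CharP.Algebra
import Mathlib.RingTheory.Adjoin.Basic
import Mathlib.RingTheory.IntegralClosure.IsIntegralClosure.Basic
import Mathlib.Algebra.Algebra.Bilinear
import Mathlib.RingTheory.Finiteness.Lattice
import Mathlib.Algebra.Algebra.ZMod

/-!
# Jacobson's commutativity theorem

A ring in which every element satisfies `xⁿ = x` for some `n > 1`, depending on the element, is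
commutative.
-/

set_option autoImplicit false

open Polynomial

namespace Fermat.Agent.RingIdentities

/-- A noncentral algebraic element of a division algebra over a finite field is conjugated to
something else inside its field: the eigenvector of the inner derivation. -/
theorem exists_eigenvector {D : Type*} [DivisionRing D] (p : ℕ) [Fact p.Prime]
    [Algebra (ZMod p) D] (a : D) [Finite (Algebra.adjoin (ZMod p) ({a} : Set D))]
    (hnc : ∃ y, y * a ≠ a * y) :
    ∃ b : D, b ≠ 0 ∧ ∃ c ∈ Algebra.adjoin (ZMod p) ({a} : Set D),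
      b * a = c * b ∧ b * a ≠ a * b := by
  classical
  set A := Algebra.adjoin (ZMod p) ({a} : Set D) with hA
  have : IsMulCommutative A := Algebra.isMulCommutative_adjoin (ZMod p) fun x hx y hy => by
    rw [Set.mem_singleton_iff] at hx hy; rw [hx, hy]
  let : CommRing A :=
    { (inferInstance : Ring A) with mul_comm := fun u v => IsMulCommutative.is_comm.comm u v }
  let : Fintype A := Fintype.ofFinite A
  have : IsDomain A := inferInstance
  let : Field A := Fintype.fieldOfDomain A
  have : CharP A p := charP_of_injective_algebraMap (algebraMap (ZMod p) A).injective p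
  obtain ⟨m, -, hm⟩ := FiniteField.card A p
  set E := Module.End (ZMod p) D
  have : Nontrivial E := ⟨⟨0, 1, fun h => one_ne_zero (α := D)
    (LinearMap.congr_fun h 1).symm⟩⟩
  have : CharP E p := charP_of_injective_algebraMap (algebraMap (ZMod p) E).injective p
  let ψ : A →ₐ[ZMod p] E := (Algebra.lmul (ZMod p) D).comp A.val
  set δ : E := LinearMap.mulRight (ZMod p) a - LinearMap.mulLeft (ZMod p) a with hδ
  have hδa : ∀ x, δ x = x * a - a * x := fun x => rfl
  have hψ : ∀ (c : A) (x : D), ψ c x = (c : D) * x := fun c x => rfl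
  have hcom : ∀ c : A, Commute (ψ c) δ := by
    intro c
    have hca : (c : D) * a = a * c := by
      have := mul_comm c ⟨a, Algebra.subset_adjoin rfl⟩
      exact congrArg Subtype.val this
    refine LinearMap.ext fun x => ?_
    show (c : D) * (x * a - a * x) = (c : D) * x * a - a * ((c : D) * x)
    rw [mul_sub, ← mul_assoc, ← mul_assoc, ← mul_assoc, hca]
  let ev : A[X] →+* E := Polynomial.eval₂RingHom' ψ.toRingHom δ hcom
  have hevX : ev X = δ := eval₂_X _ _
  have hevC : ∀ c, ev (C c) = ψ c := fun c => eval₂_C _ _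
  have hpow : δ ^ Fintype.card A = δ := by
    have haa : a ^ Fintype.card A = a :=
      congrArg Subtype.val (FiniteField.pow_card (⟨a, Algebra.subset_adjoin rfl⟩ : A))
    rw [hm] at haa ⊢
    rw [hδ, sub_pow_char_pow_of_commute (p := p) _
      (LinearMap.commute_mulLeft_right (R := ZMod p) a a).symm, LinearMap.pow_mulRight,
      LinearMap.pow_mulLeft,
      haa]
  set P : A[X] := ∏ l ∈ (Finset.univ : Finset A).erase 0, (X - C l) with hP
  have hPX : X * P = X ^ Fintype.card A - X := by
    have e := Finset.mul_prod_erase Finset.univ (fun l : A => X - C l) (Finset.mem_univ (0 : A))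
    simp only [map_zero, sub_zero] at e
    rw [hP, e]
    rw [Finset.prod_eq_multiset_prod, ← FiniteField.roots_X_pow_card_sub_X A]
    refine prod_multiset_X_sub_C_of_monic_of_roots_card_eq ?_ ?_
    · exact monic_X_pow_sub (by rw [degree_X]; exact_mod_cast Fintype.one_lt_card)
    · rw [FiniteField.roots_X_pow_card_sub_X A, Finset.card_val, Finset.card_univ,
        FiniteField.X_pow_card_sub_X_natDegree_eq A Fintype.one_lt_card]
  obtain ⟨y, hy⟩ := hnc
  have hy' : δ y ≠ 0 := by rw [hδa]; exact sub_ne_zero.2 hy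
  have hkill : ev P (δ y) = 0 := by
    have : ev (P * X) = 0 := by rw [mul_comm, hPX, map_sub, map_pow, hevX, hpow, sub_self]
    rw [map_mul, hevX] at this
    exact LinearMap.congr_fun this y
  have key : ∀ (s : Finset A) (z : D), z ≠ 0 → ev (∏ l ∈ s, (X - C l)) z = 0 →
      ∃ l ∈ s, ∃ b : D, b ≠ 0 ∧ δ b = (l : D) * b := by
    intro s
    induction s using Finset.induction with
    | empty => intro z hz h; simp at h; exact absurd h hz
    | insert l s hl ih =>
      intro z hz h
      rw [Finset.prod_insert hl, map_mul, map_sub, hevX, hevC, Module.End.mul_apply,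
        LinearMap.sub_apply, sub_eq_zero, hψ] at h
      by_cases h0 : ev (∏ l ∈ s, (X - C l)) z = 0
      · obtain ⟨l', hl', hb⟩ := ih z hz h0
        exact ⟨l', Finset.mem_insert_of_mem hl', hb⟩
      · exact ⟨l, Finset.mem_insert_self _ _, _, h0, h⟩
  obtain ⟨l, hl, b, hb, hδb⟩ := key _ _ hy' hkill
  refine ⟨b, hb, a + (l : D), add_mem (Algebra.subset_adjoin rfl) l.2, ?_, fun h => ?_⟩
  · rw [add_mul, ← hδb, hδa]; abel
  · rw [hδa, h, sub_self, eq_comm, mul_eq_zero] at hδb
    exact Finset.ne_of_mem_erase hl (Subtype.ext (hδb.resolve_right hb))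

theorem finite_powers {M : Type*} [Monoid M] {x : M} {n : ℕ} (hn : 1 < n) (hx : x ^ n = x) :
    (Set.range fun i : ℕ => x ^ i).Finite := by
  classical
  refine ((Finset.range n).image fun i => x ^ i).finite_toSet.subset ?_
  rintro _ ⟨i, rfl⟩
  induction i using Nat.strong_induction_on with
  | _ i ih =>
    rcases lt_or_ge i n with h | h
    · exact Finset.mem_image_of_mem _ (Finset.mem_range.2 h)
    · have e : x ^ i = x ^ (i - n + 1) := by
        conv_lhs => rw [← Nat.sub_add_cancel h, pow_add, hx, ← pow_succ]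
      show x ^ i ∈ _
      rw [e]
      exact ih _ (by omega)

theorem finite_span_of_finite {D : Type*} [Ring D] (p : ℕ) [Fact p.Prime] [Algebra (ZMod p) D]
    {S : Set D} (hS : S.Finite) : Finite (Submodule.span (ZMod p) S) := by
  have := Module.Finite.span_of_finite (ZMod p) hS
  exact Module.finite_of_finite (ZMod p)

/-- **Jacobson's theorem for division rings.** -/
theorem divisionRing_commutative {D : Type*} [DivisionRing D]
    (h : ∀ x : D, ∃ n : ℕ, 1 < n ∧ x ^ n = x) (x y : D) : x * y = y * x := by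
  classical
  obtain ⟨p, hp⟩ := CharP.exists D
  have hp0 : p ≠ 0 := by
    rintro rfl
    have := CharP.charP_to_charZero D
    obtain ⟨n, hn, hx⟩ := h 2
    have : (2 : ℕ) ^ n = 2 ^ 1 := by
      rw [pow_one]; exact Nat.cast_injective (R := D) (by push_cast; exact hx)
    exact absurd (Nat.pow_right_injective le_rfl this) (by omega)
  have : Fact p.Prime := ⟨(CharP.char_is_prime_or_zero D p).resolve_right hp0⟩
  let : Algebra (ZMod p) D := ZMod.algebra D p
  by_contra hxy
  set a := y
  obtain ⟨n, hn, han⟩ := h a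
  have hAeq : ∀ c : D, c ∈ Algebra.adjoin (ZMod p) ({a} : Set D) ↔
      c ∈ Submodule.span (ZMod p) (Set.range fun i : ℕ => a ^ i) := fun c => by
    rw [← Subalgebra.mem_toSubmodule, Algebra.adjoin_eq_span, ← Submonoid.powers_eq_closure,
      Submonoid.coe_powers]
  have := finite_span_of_finite p (finite_powers hn han)
  have : Finite (Algebra.adjoin (ZMod p) ({a} : Set D)) :=
    Finite.of_injective (fun c => (⟨c.1, (hAeq c.1).1 c.2⟩ :
      Submodule.span (ZMod p) (Set.range fun i : ℕ => a ^ i)))
      fun u v huv => Subtype.ext (congrArg Subtype.val huv :)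
  obtain ⟨b, hb, c, hc, hba, hne⟩ := exists_eigenvector p a ⟨x, hxy⟩
  obtain ⟨m, hm, hbm⟩ := h b
  set A := Algebra.adjoin (ZMod p) ({a} : Set D)
  have hconj : ∀ d ∈ A, ∃ d' ∈ A, b * d = d' * b := by
    intro d hd
    induction hd using Algebra.adjoin_induction with
    | mem d hd => rw [Set.mem_singleton_iff] at hd; exact ⟨c, hc, hd ▸ hba⟩
    | algebraMap r => exact ⟨_, A.algebraMap_mem r, (Algebra.commutes r b).symm⟩
    | add u v _ _ hu hv =>
      obtain ⟨u', hu', hu⟩ := hu
      obtain ⟨v', hv', hv⟩ := hv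
      exact ⟨u' + v', add_mem hu' hv', by rw [mul_add, add_mul, hu, hv]⟩
    | mul u v _ _ hu hv =>
      obtain ⟨u', hu', hu⟩ := hu
      obtain ⟨v', hv', hv⟩ := hv
      exact ⟨u' * v', mul_mem hu' hv', by
        rw [← mul_assoc, hu, mul_assoc, hv, ← mul_assoc]⟩
  have hconj' : ∀ (j : ℕ), ∀ d ∈ A, ∃ d' ∈ A, b ^ j * d = d' * b ^ j := by
    intro j
    induction j with
    | zero => intro d hd; exact ⟨d, hd, by simp⟩
    | succ j ih =>
      intro d hd
      obtain ⟨d', hd', e⟩ := hconj d hd
      obtain ⟨d'', hd'', e'⟩ := ih d' hd'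
      exact ⟨d'', hd'', by rw [pow_succ, mul_assoc, e, ← mul_assoc, e', mul_assoc]⟩
  let G : Submonoid D :=
    { carrier := (fun u : D × D => u.1 * u.2) '' ((A : Set D) ×ˢ Set.range fun i : ℕ => b ^ i)
      one_mem' := ⟨(1, 1), ⟨one_mem A, 0, pow_zero b⟩, mul_one 1⟩
      mul_mem' := by
        rintro _ _ ⟨⟨u, v⟩, ⟨hu, i, rfl⟩, rfl⟩ ⟨⟨u', v'⟩, ⟨hu', j, rfl⟩, rfl⟩
        obtain ⟨d, hd, e⟩ := hconj' i u' hu'
        exact ⟨(u * d, b ^ (i + j)), ⟨mul_mem hu hd, i + j, rfl⟩, by
          simp only [pow_add, mul_assoc]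
          rw [← mul_assoc (b ^ i) u', e, mul_assoc]⟩ }
  have hG : (G : Set D).Finite :=
    ((Set.toFinite (A : Set D)).prod (finite_powers hm hbm)).image _
  set S := Algebra.adjoin (ZMod p) ({a, b} : Set D)
  have hS : ∀ d ∈ S, d ∈ Submodule.span (ZMod p) (G : Set D) := by
    intro d hd
    rw [← Subalgebra.mem_toSubmodule, Algebra.adjoin_eq_span] at hd
    refine Submodule.span_mono (Submonoid.closure_le.2 ?_) hd
    intro d hd
    rcases Set.mem_insert_iff.1 hd with hd | hd <;> [skip; rw [Set.mem_singleton_iff] at hd] <;>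
      rw [hd]
    · exact ⟨(a, 1), ⟨Algebra.subset_adjoin rfl, 0, pow_zero b⟩, mul_one a⟩
    · exact ⟨(1, b), ⟨one_mem A, 1, pow_one b⟩, one_mul b⟩
  have := finite_span_of_finite p hG
  have : Finite S := Finite.of_injective (fun d => (⟨d.1, hS d.1 d.2⟩ :
      Submodule.span (ZMod p) (G : Set D))) fun u v huv => Subtype.ext (congrArg Subtype.val huv :)
  have : IsDomain S := inferInstance
  have hcomm := (Finite.isDomain_to_isField S).mul_comm
    ⟨b, Algebra.subset_adjoin (Set.mem_insert_of_mem _ rfl)⟩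
    ⟨a, Algebra.subset_adjoin (Set.mem_insert _ _)⟩
  exact hne (congrArg Subtype.val hcomm)

/-- **Jacobson's commutativity theorem**. -/
theorem mul_comm_of_forall_pow_eq_self {R : Type*} [Ring R]
    (h : ∀ x : R, ∃ n : ℕ, 1 < n ∧ x ^ n = x) (x y : R) : x * y = y * x := by
  classical
  have red : ∀ z : R, z * z = 0 → z = 0 := by
    intro z hz
    obtain ⟨n, hn, e⟩ := h z
    rw [← e, show n = 2 + (n - 2) by omega, pow_add, pow_two, hz, zero_mul]
  have central : ∀ e : R, e * e = e → ∀ r, e * r = r * e := by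
    intro e he r
    have h1 : e * r - e * r * e = 0 := red _ (by
      simp only [sub_mul, mul_sub, mul_assoc]
      simp only [← mul_assoc e e, he]
      simp only [sub_self])
    have h2 : r * e - e * r * e = 0 := red _ (by
      simp only [sub_mul, mul_sub, mul_assoc]
      simp only [← mul_assoc e e, he]
      simp only [sub_self])
    rw [sub_eq_zero.1 h1, sub_eq_zero.1 h2]
  have idem : ∀ (z : R) (n : ℕ), 1 < n → z ^ n = z →
      z ^ (n - 1) * z ^ (n - 1) = z ^ (n - 1) := by
    intro z n hn e
    obtain ⟨m, rfl⟩ : ∃ m, n = m + 2 := ⟨n - 2, by omega⟩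
    calc z ^ (m + 1) * z ^ (m + 1) = z ^ m * z ^ (m + 2) := by
          rw [← pow_add, ← pow_add]; congr 1; omega
      _ = z ^ (m + 1) := by rw [e, pow_succ]
  by_contra hxy
  obtain ⟨n, hn, hz⟩ := h (x * y - y * x)
  set z := x * y - y * x with hzdef
  have he := idem z n hn hz
  set e := z ^ (n - 1) with hedef
  have hze : z = z * e := by rw [hedef, ← pow_succ', show n - 1 + 1 = n by omega, hz]
  have he0 : e ≠ 0 := fun e0 => hxy (sub_eq_zero.1 (by rw [← hzdef, hze, e0, mul_zero]))
  have hproper : Ideal.span ({1 - e} : Set R) ≠ ⊤ := by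
    rw [Ne, Ideal.eq_top_iff_one, Ideal.mem_span_singleton']
    rintro ⟨r, hr⟩
    refine he0 ?_
    have := congrArg (· * e) hr
    simpa [mul_assoc, sub_mul, he] using this.symm
  obtain ⟨M, hM, hle⟩ := Ideal.exists_le_maximal _ hproper
  have h1M : (1 : R) - e ∈ M := hle (Ideal.subset_span rfl)
  have hnot : z ∉ M := by
    intro hzM
    refine hM.ne_top ((Ideal.eq_top_iff_one M).2 ?_)
    have heM : e ∈ M := by
      rw [hedef, show n - 1 = (n - 2) + 1 by omega, pow_succ]
      exact M.mul_mem_left _ hzM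
    have := M.add_mem h1M heM
    rwa [sub_add_cancel] at this
  have : M.IsTwoSided := ⟨fun {u} r hu => by
    obtain ⟨l, hl, el⟩ := h u
    have hc := central _ (idem u l hl el)
    have e1 : u * r = u * r * u ^ (l - 1) := by
      conv_lhs => rw [← el, show l = (l - 1) + 1 by omega, pow_succ, mul_assoc, hc]
    rw [e1, show l - 1 = (l - 2) + 1 by omega, pow_succ, ← mul_assoc]
    exact M.mul_mem_left _ hu⟩
  have : Nontrivial (R ⧸ M) :=
    ⟨⟨Ideal.Quotient.mk M z, 0, fun e => hnot (Ideal.Quotient.eq_zero_iff_mem.1 e)⟩⟩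
  have hunit : ∀ q : R ⧸ M, IsUnit q ∨ q = 0 := by
    intro q
    obtain ⟨u, rfl⟩ := Ideal.Quotient.mk_surjective q
    by_cases hu : u ∈ M
    · exact Or.inr (Ideal.Quotient.eq_zero_iff_mem.2 hu)
    · obtain ⟨l, hl, el⟩ := h u
      set f := u ^ (l - 1) with hf
      have hff := idem u l hl el
      have hfM : f ∉ M := fun hfM => hu (by
        rw [← el, show l = 1 + (l - 1) by omega, pow_add, pow_one]
        exact M.mul_mem_left _ hfM)
      have htop : M ⊔ Ideal.span ({f} : Set R) = ⊤ := by
        refine hM.1.2 _ (lt_of_le_of_ne le_sup_left fun e => hfM ?_)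
        rw [e]
        exact Ideal.mem_sup_right (Ideal.subset_span rfl)
      obtain ⟨m', hm', s, hs, e1⟩ := Submodule.mem_sup.1 ((Ideal.eq_top_iff_one _).1 htop)
      obtain ⟨r, rfl⟩ := Ideal.mem_span_singleton'.1 hs
      have h1f : (1 : R) - f ∈ M := by
        have : (1 - f) * m' = 1 - f := by
          rw [eq_sub_of_add_eq e1, mul_sub, mul_one, sub_eq_self, ← central f hff r,
            ← mul_assoc, sub_mul, one_mul, hff, sub_self, zero_mul]
        rw [← this]
        exact M.mul_mem_left _ hm'
      have hone : Ideal.Quotient.mk M f = 1 := by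
        rw [← map_one (Ideal.Quotient.mk M)]
        exact (Ideal.Quotient.eq.2 h1f).symm
      rw [hf, map_pow] at hone
      exact Or.inl (IsUnit.of_pow_eq_one hone (by omega))
  let := DivisionRing.ofIsUnitOrEqZero hunit
  have hD : ∀ q : R ⧸ M, ∃ n : ℕ, 1 < n ∧ q ^ n = q := by
    intro q
    obtain ⟨u, rfl⟩ := Ideal.Quotient.mk_surjective q
    obtain ⟨l, hl, el⟩ := h u
    exact ⟨l, hl, by rw [← map_pow, el]⟩
  refine hnot (Ideal.Quotient.eq_zero_iff_mem.1 ?_)
  rw [hzdef, map_sub, map_mul, map_mul, divisionRing_commutative hD, sub_self]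

end Fermat.Agent.RingIdentities
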