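import Mathlib.LinearAlgebra.Matrix.Charpoly.Coeff
import Mathlib.Algebra.Polynomial.Derivative
import Mathlib.LinearAlgebra.Matrix.Trace
import Mathlib.LinearAlgebra.Matrix.Adjugate
import Mathlib.Algebra.Algebra.Rat

/-!
# A matrix all of whose powers have trace zero is nilpotent

Valid over any commutative ring in which positive integers cancel: by the derivative of the
characteristic polynomial and the recursion for the coefficients of the adjugate.
-/

set_option autoImplicit false

open Polynomial Matrix

namespace Fermat.Agent.RingIdentities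

variable {n : Type*} [Fintype n] [DecidableEq n] {R : Type*} [CommRing R]

/-- The derivative of a determinant, row by row. -/
theorem derivative_det_rows (N : Matrix n n R[X]) :
    derivative N.det = ∑ i, (N.updateRow i fun j => derivative (N i j)).det := by
  simp only [det_apply', derivative_sum]
  rw [Finset.sum_comm]
  refine Finset.sum_congr rfl fun σ _ => ?_
  rw [← Polynomial.C_eq_intCast, derivative_C_mul, derivative_prod_finset, Finset.mul_sum,
    ← Equiv.sum_comp σ fun i => C ((Equiv.Perm.sign σ : ℤ) : R) *
      ∏ j, (N.updateRow i fun j => derivative (N i j)) (σ j) j]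
  refine Finset.sum_congr rfl fun a _ => ?_
  rw [← Finset.mul_prod_erase Finset.univ _ (Finset.mem_univ a), updateRow_self,
    mul_comm (derivative _)]
  congr 2
  exact Finset.prod_congr rfl fun b hb => by
    rw [updateRow_ne (σ.injective.ne (Finset.ne_of_mem_erase hb))]

theorem derivative_charpoly_eq_trace (M : Matrix n n R) :
    derivative M.charpoly = (adjugate (charmatrix M)).trace := by
  rw [Matrix.charpoly, derivative_det_rows, Matrix.trace]
  refine Finset.sum_congr rfl fun i _ => ?_
  rw [diag_apply, adjugate_apply]
  congr 2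
  funext j
  by_cases h : i = j
  · subst h; simp [charmatrix_apply_eq]
  · simp [charmatrix_apply_ne _ _ _ h, Ne.symm h]

/-- **A matrix with vanishing traces of powers satisfies `M ^ card n = 0`.** -/
theorem pow_card_eq_zero_of_trace_pow (hcancel : ∀ (j : ℕ) (x : R), j ≠ 0 → j • x = 0 → x = 0)
    {M : Matrix n n R} (htr : ∀ j, 1 ≤ j → (M ^ j).trace = 0) : M ^ Fintype.card n = 0 := by
  nontriviality R
  set B := matPolyEquiv (adjugate (charmatrix M)) with hB
  set c := fun j => M.charpoly.coeff j with hc
  have hmul : B * (X - C M) = matPolyEquiv (M.charpoly • (1 : Matrix n n R[X])) := by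
    rw [hB, ← matPolyEquiv_charmatrix, ← map_mul, adjugate_mul, Matrix.charpoly]
  have hrec : ∀ j, B.coeff j = B.coeff (j + 1) * M + c (j + 1) • (1 : Matrix n n R) := by
    intro j
    have := congrArg (Polynomial.coeff · (j + 1)) hmul
    simp only [mul_sub, coeff_sub, coeff_mul_X, coeff_mul_C, matPolyEquiv_smul_one, coeff_map]
      at this
    rw [eq_add_of_sub_eq this, Algebra.algebraMap_eq_smul_one, add_comm]
  have hzero : c 0 • (1 : Matrix n n R) = -(B.coeff 0 * M) := by
    have := congrArg (Polynomial.coeff · 0) hmul
    simp only [mul_sub, coeff_sub, mul_coeff_zero, coeff_X_zero, mul_zero, coeff_C_zero, zero_sub,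
      matPolyEquiv_smul_one, coeff_map] at this
    rw [this, Algebra.algebraMap_eq_smul_one]
  have hBl : ∀ (d j l : ℕ), B.natDegree < j + d → 1 ≤ l → (B.coeff j * M ^ l).trace = 0 := by
    intro d
    induction d with
    | zero => intro j l hj _; simp [coeff_eq_zero_of_natDegree_lt (by omega : B.natDegree < j)]
    | succ d ih =>
      intro j l hj hl
      rw [hrec j, add_mul, trace_add, mul_assoc, ← pow_succ', Matrix.smul_mul, one_mul,
        trace_smul, htr l hl, smul_zero, add_zero]
      exact ih (j + 1) (l + 1) (by omega) (by omega)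
  have htrB : ∀ j, (B.coeff j).trace = (Fintype.card n) • c (j + 1) := by
    intro j
    conv_lhs => rw [hrec j]
    rw [trace_add, trace_smul, trace_one, ← pow_one M, hBl _ (j + 1) 1
      (by omega : B.natDegree < j + 1 + (B.natDegree + 1)) le_rfl, zero_add, smul_eq_mul,
      nsmul_eq_mul, mul_comm]
  have hder : ∀ j, (B.coeff j).trace = (j + 1) • c (j + 1) := by
    intro j
    have := congrArg (Polynomial.coeff · j) (derivative_charpoly_eq_trace M)
    simp only [coeff_derivative, Matrix.trace, diag_apply, finsetSum_coeff] at this
    rw [nsmul_eq_mul, mul_comm, Matrix.trace]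
    push_cast
    rw [this]
    simp [hB, matPolyEquiv_coeff_apply]
  have hcj : ∀ j, j + 1 ≠ Fintype.card n → c (j + 1) = 0 := by
    intro j hj
    have e := (hder j).symm.trans (htrB j)
    rcases lt_or_gt_of_ne hj with h | h
    · obtain ⟨d, hd⟩ := Nat.exists_eq_add_of_lt h
      rw [hd, show j + 1 + d + 1 = (j + 1) + (d + 1) by omega,
        add_nsmul (c (j + 1)) (j + 1) (d + 1), left_eq_add] at e
      exact hcancel _ _ (by omega) e
    · exact coeff_eq_zero_of_natDegree_lt (by rwa [charpoly_natDegree_eq_dim])
  have hc0 : 0 < Fintype.card n → c 0 = 0 := by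
    intro hpos
    refine hcancel _ _ hpos.ne' ?_
    have := congrArg Matrix.trace hzero
    rw [trace_smul, trace_one, trace_neg, ← pow_one M, hBl _ 0 1
      (by omega : B.natDegree < 0 + (B.natDegree + 1)) le_rfl, neg_zero, smul_eq_mul] at this
    rwa [nsmul_eq_mul, mul_comm]
  have hchar : M.charpoly = X ^ Fintype.card n := by
    ext i
    rw [coeff_X_pow]
    split_ifs with h
    · have := (M.charpoly_monic).coeff_natDegree
      rwa [charpoly_natDegree_eq_dim, ← h] at this
    · rcases i with _ | j
      · exact hc0 (Nat.pos_of_ne_zero fun e => h e.symm)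
      · exact hcj j h
  have := aeval_self_charpoly M
  rwa [hchar, map_pow, aeval_X] at this

end Fermat.Agent.RingIdentities
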